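import Fermat.Agent.BAD.Ihara.Socle
import Fermat.Agent.HM.H1.DegeneracyMaps
import Fermat.Agent.HM.H1.TrivialChar

/-!
# The pair of degeneracy maps on Hecke modules

The sum of the two degeneracy maps into level `L q`, and a parabolic eigenpair in its kernel when
that kernel survives localisation at an eigensystem.
-/

set_option autoImplicit false

open CongruenceSubgroup MvPolynomial
open scoped MatrixGroups
open ModularCurve.Period
open FermatAgent.HM

noncomputable section

namespace FermatAgent.BAD.Ihara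

variable {k : Type} [Field k] {L : ℕ} (D : ALData) (hqL : D.q.Coprime L) {ι : Type}
  (pr : ι → HPrime L)

/-- The Hecke module at level `D.L` with trivial character. -/
abbrev Low (k : Type) [Field k] (D : ALData) (hqL : D.q.Coprime L) (pr : ι → HPrime L) :=
  D.LowMod (one_dvd D.L) hqL pr (1 : (ZMod 1)ˣ →* k) k

/-- The two degeneracy maps on a pair. -/
def pairDeg (z : Low k D hqL pr × Low k D hqL pr) :
    D.HighMod (one_dvd D.L) hqL pr (1 : (ZMod 1)ˣ →* k) k :=
  D.resMod (1 : (ZMod 1)ˣ →* k) (one_dvd D.L) hqL pr z.1 +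
    D.degMod (1 : (ZMod 1)ˣ →* k) (one_dvd D.L) hqL pr z.2

variable {D hqL pr}

theorem degMod_eq (z : Low k D hqL pr) :
    D.degMod (1 : (ZMod 1)ˣ →* k) (one_dvd D.L) hqL pr z =
      D.degOp (L := L) (X := k) (1 : (ZMod 1)ˣ →* k) (one_dvd D.L) hqL z :=
  D.wOp_resOp (1 : (ZMod 1)ˣ →* k) (one_dvd D.L) hqL z

theorem fac_diagCorr (γ : Gamma0 D.N) (γ' : Gamma0 D.L)
    (h : D.diagQ * ((γ : SL(2, ℤ)) : Mat2) = ((γ' : SL(2, ℤ)) : Mat2) * D.diagQ) :
    (D.diagCorr (L := L) (one_dvd D.L) hqL).fac γ () = γ' :=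
  (D.diagCorr (L := L) (one_dvd D.L) hqL).fac_unique h

/-- The first degeneracy map is restriction. -/
theorem trivHom_resMod (z : Low k D hqL pr) (γ : Gamma0 D.N) :
    trivHom k D.N (D.extPr hqL pr) k (D.resMod (1 : (ZMod 1)ˣ →* k) (one_dvd D.L) hqL pr z)
        (Additive.ofMul γ) =
      trivHom k D.L (D.extPr hqL pr) k z (Additive.ofMul ⟨γ.1, D.gamma0_le γ.2⟩) := by
  rw [trivHom_res, Corr.homOp_apply, Fintype.sum_unique, (D.resCorr 1 L).fac_unique
    (el := ⟨γ.1, D.gamma0_le γ.2⟩) (by simp [ALData.resCorr, Corr.single])]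

/-- The second degeneracy map is conjugation by `diag(q, 1)`. -/
theorem trivHom_degMod (z : Low k D hqL pr) (γ : Gamma0 D.N) (γ' : Gamma0 D.L)
    (h : D.diagQ * ((γ : SL(2, ℤ)) : Mat2) = ((γ' : SL(2, ℤ)) : Mat2) * D.diagQ) :
    trivHom k D.N (D.extPr hqL pr) k (D.degMod (1 : (ZMod 1)ˣ →* k) (one_dvd D.L) hqL pr z)
        (Additive.ofMul γ) = trivHom k D.L (D.extPr hqL pr) k z (Additive.ofMul γ') := by
  rw [degMod_eq, show trivHom k D.N (D.extPr hqL pr) k
      (D.degOp (L := L) (X := k) (1 : (ZMod 1)ˣ →* k) (one_dvd D.L) hqL z) =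
      (D.diagCorr (L := L) (one_dvd D.L) hqL).homOp (trivHom k D.L (D.extPr hqL pr) k z) from
    trivHom_op (D.extPr hqL pr) _ z, Corr.homOp_apply, Fintype.sum_unique, fac_diagCorr γ γ' h]

section

variable [Finite k]

instance finite_low : Finite (Low k D hqL pr) := by
  classical
  have : Finite (Additive (Gamma0 D.L) →+ k) := by
    obtain ⟨T, hT⟩ := Group.fg_def.mp (inferInstance : Group.FG (Gamma0 D.L))
    refine Finite.of_injective (fun φ (t : (T : Set (Gamma0 D.L))) => φ (Additive.ofMul t.1))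
      fun φ φ' he => AddMonoidHom.ext fun x => ?_
    obtain ⟨γ, rfl⟩ := Additive.ofMul.surjective x
    have hm : γ ∈ Subgroup.closure (T : Set (Gamma0 D.L)) := by rw [hT]; trivial
    induction hm using Subgroup.closure_induction with
    | mem t ht => exact congrFun he ⟨t, ht⟩
    | one => simp
    | mul a b _ _ ha hb => simp [ha, hb]
    | inv a _ ha => simp [ha]
  exact Finite.of_equiv _ (trivHom k D.L (D.extPr hqL pr) k).symm.toEquiv

end

variable [Finite k] (c : ι → k)

/-- The maximal ideal of the eigensystem. -/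
def eigIdeal : Ideal (MvPolynomial ι k) :=
  RingHom.ker (MvPolynomial.aeval c : MvPolynomial ι k →ₐ[k] k).toRingHom

instance eigIdeal_maximal : (eigIdeal c).IsMaximal :=
  RingHom.ker_isMaximal_of_surjective _ fun x => ⟨C x, by simp⟩

/-- If no element outside the eigensystem kills a pair in the kernel of the degeneracy maps, the
kernel contains a nonzero parabolic eigenpair. -/
theorem exists_parabolic_eigen_pair (hne : ∀ i, ((pr i).1.1 : ℕ) ≠ D.q)
    (i₀ : ι) (hi₀ : (((pr i₀).1.1 : ℕ) : ZMod D.L) = 1) (hne₀ : c i₀ ≠ ((pr i₀).1.1 : ℕ) + 1)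
    {z : Low k D hqL pr × Low k D hqL pr} (h : pairDeg D hqL pr z = 0)
    (hall : ∀ s : MvPolynomial ι k, s ∉ eigIdeal c → rename some s • z ≠ 0) :
    ∃ u v : Low k D hqL pr, pairDeg D hqL pr (u, v) = 0 ∧ (u, v) ≠ 0 ∧
      (∀ i : ι, (MvPolynomial.X (some i) : MvPolynomial (Option ι) k) • u = c i • u ∧
        (MvPolynomial.X (some i) : MvPolynomial (Option ι) k) • v = c i • v) ∧
      trivHom k D.L (D.extPr hqL pr) k u ∈ parabolicHoms k (Gamma0 D.L) k ∧
      trivHom k D.L (D.extPr hqL pr) k v ∈ parabolicHoms k (Gamma0 D.L) k := by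
  let : Module (MvPolynomial ι k) (Low k D hqL pr) :=
    Module.compHom _ (rename (some : ι → Option ι) : MvPolynomial ι k →ₐ[k] _).toRingHom
  have hcomm : ∀ (i : ι) (w : Low k D hqL pr × Low k D hqL pr),
      pairDeg D hqL pr ((MvPolynomial.X (some i) : MvPolynomial (Option ι) k) • w) =
        (MvPolynomial.X (some i) : MvPolynomial (Option ι) k) • pairDeg D hqL pr w := fun i w => by
    have : Fact (pr i).1.1.Prime := ⟨(pr i).1.2⟩
    rw [pairDeg, pairDeg, Prod.smul_fst, Prod.smul_snd, D.resMod_X_some hne, smul_add]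
    congr 1
    rw [ALData.degMod, LinearMap.comp_apply, LinearMap.comp_apply, D.resMod_X_some hne]
    simp only [mv_smul_def, heckeHom_X]
    exact (D.wOp_comm (X := k) (1 : (ZMod 1)ˣ →* k) (one_dvd D.L) hqL (hne i) (pr i).2 _).symm
  let K : Submodule (MvPolynomial ι k) (Low k D hqL pr × Low k D hqL pr) :=
    { carrier := {w | pairDeg D hqL pr w = 0}
      zero_mem' := by simp [pairDeg]
      add_mem' := fun {u v} (hu : pairDeg D hqL pr u = 0) (hv : pairDeg D hqL pr v = 0) => by
        show pairDeg D hqL pr (u + v) = 0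
        simp only [pairDeg, Prod.fst_add, Prod.snd_add, map_add] at hu hv ⊢
        rw [add_add_add_comm, hu, hv, add_zero]
      smul_mem' := fun t w (hw : pairDeg D hqL pr w = 0) => by
        show pairDeg D hqL pr (rename (some : ι → Option ι) t • w) = 0
        induction t using MvPolynomial.induction_on generalizing w with
        | C r =>
          rw [rename_C]
          simp only [pairDeg, Prod.smul_fst, Prod.smul_snd, C_smul_eq, _root_.map_smul] at hw ⊢
          rw [← smul_add, hw, smul_zero]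
        | add t t' ht ht' =>
          have h1 := ht w hw
          have h2 := ht' w hw
          simp only [map_add, add_smul, pairDeg, Prod.fst_add, Prod.snd_add] at h1 h2 ⊢
          rw [add_add_add_comm, h1, h2, add_zero]
        | mul_X t i ht =>
          rw [map_mul, rename_X, mul_smul]
          exact ht _ (by rw [hcomm, hw, smul_zero]) }
  obtain ⟨⟨u, v⟩, hwK, hw0, hkill⟩ := exists_killed (eigIdeal c) K (z := z) h
    fun ⟨s, hs, hs0⟩ => hall s hs hs0
  have heig : ∀ i : ι, (MvPolynomial.X (some i) : MvPolynomial (Option ι) k) • u = c i • u ∧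
      (MvPolynomial.X (some i) : MvPolynomial (Option ι) k) • v = c i • v := fun i => by
    have h1 := hkill (MvPolynomial.X i - C (c i)) (by simp [eigIdeal, RingHom.mem_ker])
    change rename (some : ι → Option ι) (MvPolynomial.X i - C (c i)) • (u, v) = 0 at h1
    rw [map_sub, rename_X, rename_C, sub_smul, sub_eq_zero, Prod.ext_iff] at h1
    simpa [Prod.smul_fst, Prod.smul_snd, C_smul_eq] using h1
  have hpar : ∀ w : Low k D hqL pr,
      (MvPolynomial.X (some i₀) : MvPolynomial (Option ι) k) • w = c i₀ • w →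
        trivHom k D.L (D.extPr hqL pr) k w ∈ parabolicHoms k (Gamma0 D.L) k := fun w hw => by
    have hm := sub_smul_mem_trivParSub (R := k) (M := D.L) (D.extPr hqL pr) (some i₀) hi₀ w
    change (MvPolynomial.X (some i₀) - C ((((pr i₀).1.1 : ℕ) : k) + 1) :
      MvPolynomial (Option ι) k) • w ∈ _ at hm
    rw [sub_smul, C_smul_eq, hw, ← sub_smul, mem_trivParSub, _root_.map_smul] at hm
    have := Submodule.smul_mem _ (c i₀ - ((((pr i₀).1.1 : ℕ) : k) + 1))⁻¹ hm
    rwa [smul_smul, inv_mul_cancel₀ (sub_ne_zero.mpr hne₀), one_smul] at this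
  exact ⟨u, v, hwK, hw0, heig, hpar u (heig i₀).1, hpar v (heig i₀).2⟩

end FermatAgent.BAD.Ihara
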