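import Fermat.Agent.ES.Tate.Module
import Mathlib.LinearAlgebra.Dimension.Finrank
import Mathlib.LinearAlgebra.FreeModule.Finite.Basic

/-!
# The Galois action on parabolic homomorphisms into a finite field of characteristic `p`

The action transported from the characters of order `p` through functionals `k → 𝔽_p`: it is a
representation of finite level commuting with the Hecke operators and satisfying the congruence
relation at Frobenius elements.
-/

set_option autoImplicit false

open CongruenceSubgroup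
open scoped MatrixGroups
open ModularCurve.Period
open FermatAgent.Period (heckeOp)
open FermatAgent.ES (parGroup galChar goodLevel_Gamma0 GQ zU heckeChar)

noncomputable section

namespace FermatAgent.BAD.Ihara

variable {N p : ℕ} [NeZero N] [Fact p.Prime] {k : Type*} [Field k] [Algebra (ZMod p) k]

local notation "W" => parabolicHoms k (Gamma0 N) k

/-- The character attached to a functional and a homomorphism. -/
def chr (f : k →ₗ[ZMod p] ZMod p) (y : W) : parGroup (Gamma0 N) p :=
  ⟨(zU p).comp (AddMonoidHom.toMultiplicativeRight (f.toAddMonoidHom.comp y.1)),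
    MonoidHom.ext fun γ => by rw [MonoidHom.pow_apply]; exact ES.zU_pow_eq_one _,
    fun γ hγ => by
      show zU p (Multiplicative.ofAdd (f (y.1 (Additive.ofMul γ)))) = 1
      rw [y.2 γ hγ, map_zero]; exact map_one _⟩

section

omit [NeZero N]

/-- The values of the attached character. -/
theorem chr_apply (f : k →ₗ[ZMod p] ZMod p) (y : W) (γ : Gamma0 N) :
    (chr f y : Gamma0 N →* ℂˣ) γ = zU p (Multiplicative.ofAdd (f (y.1 (Additive.ofMul γ)))) := rfl

/-- The attached character is additive in the homomorphism. -/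
theorem chr_add (f : k →ₗ[ZMod p] ZMod p) (y y' : W) : chr f (y + y') = chr f y * chr f y' :=
  Subtype.ext (MonoidHom.ext fun γ => by
    rw [Subgroup.coe_mul, MonoidHom.mul_apply, chr_apply, chr_apply, chr_apply, ← map_mul,
      ← ofAdd_add, ← map_add]
    rfl)

theorem chr_smul (f : k →ₗ[ZMod p] ZMod p) (a : k) (y : W) :
    chr f (a • y) = chr (f.comp (LinearMap.mul (ZMod p) k a)) y := rfl

theorem chr_add_fun (f f' : k →ₗ[ZMod p] ZMod p) (y : W) :
    chr (f + f') y = chr f y * chr f' y :=
  Subtype.ext (MonoidHom.ext fun γ => by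
    rw [Subgroup.coe_mul, MonoidHom.mul_apply, chr_apply, chr_apply, chr_apply, ← map_mul,
      ← ofAdd_add, LinearMap.add_apply])

/-- Scaling the functional raises the character to a power. -/
theorem chr_smul_fun (a : ZMod p) (f : k →ₗ[ZMod p] ZMod p) (y : W) :
    chr (a • f) y = chr f y ^ a.val :=
  Subtype.ext (MonoidHom.ext fun γ => by
    rw [SubmonoidClass.coe_pow, MonoidHom.pow_apply, chr_apply, chr_apply, ← map_pow, ← ofAdd_nsmul,
      LinearMap.smul_apply, nsmul_eq_mul, smul_eq_mul, ZMod.natCast_zmod_val])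

/-- A homomorphism is determined by its attached characters. -/
theorem ext_chr [Module.Finite (ZMod p) k] {y y' : W}
    (h : ∀ f : k →ₗ[ZMod p] ZMod p, chr f y = chr f y') : y = y' := by
  refine Subtype.ext (AddMonoidHom.ext fun x => ?_)
  obtain ⟨γ, rfl⟩ := Additive.ofMul.surjective x
  refine (Module.finBasis (ZMod p) k).ext_elem fun i => ?_
  have := DFunLike.congr_fun (congrArg Subtype.val (h ((Module.finBasis (ZMod p) k).coord i))) γ
  rw [chr_apply, chr_apply, (ES.zU_injective p).eq_iff] at this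
  exact Multiplicative.ofAdd.injective this

theorem exists_hom_of_parGroup (χ : parGroup (Gamma0 N) p) :
    ∃ φ : Additive (Gamma0 N) →+ ZMod p,
      (∀ γ, zU p (Multiplicative.ofAdd (φ (Additive.ofMul γ))) = (χ : Gamma0 N →* ℂˣ) γ) ∧
        IsParabolicHom (Gamma0 N) φ := by
  have hv : ∀ γ, ∃ a : ZMod p, zU p (Multiplicative.ofAdd a) = (χ : Gamma0 N →* ℂˣ) γ :=
    fun γ => ES.exists_zU_eq (by rw [← MonoidHom.pow_apply, χ.2.1, MonoidHom.one_apply])
  choose a ha using hv
  refine ⟨AddMonoidHom.mk' (fun x => a (Additive.toMul x)) fun x x' =>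
    Multiplicative.ofAdd.injective (ES.zU_injective p ?_), fun γ => ha γ, fun γ hγ => ?_⟩
  · rw [ofAdd_add, map_mul, ha, ha, ha, toMul_add, map_mul]
  · refine (ES.zU_ne_iff _).mp ?_
    exact (ha γ).trans (χ.2.2 γ hγ)

end

variable [Module.Finite (ZMod p) k]

theorem exists_galW (g : GQ) (y : W) :
    ∃ y' : W, ∀ f : k →ₗ[ZMod p] ZMod p, chr f y' = galChar (goodLevel_Gamma0 N) p g (chr f y) := by
  classical
  set b := Module.finBasis (ZMod p) k
  choose φ hφ hφp using fun i =>
    exists_hom_of_parGroup (galChar (goodLevel_Gamma0 N) p g (chr (b.coord i) y))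
  let y' : W := ⟨∑ i, (LinearMap.toSpanSingleton (ZMod p) k (b i)).toAddMonoidHom.comp (φ i),
    fun γ hγ => by
      rw [AddMonoidHom.finsetSum_apply]
      exact Finset.sum_eq_zero fun i _ => by simp [hφp i γ hγ]⟩
  have hb : ∀ i, chr (b.coord i) y' = galChar (goodLevel_Gamma0 N) p g (chr (b.coord i) y) :=
    fun i =>
    Subtype.ext (MonoidHom.ext fun γ => by
      rw [chr_apply, ← hφ i γ]
      congr 2
      simp [y', AddMonoidHom.finsetSum_apply, map_sum, Finsupp.single_apply, smul_eq_mul])
  refine ⟨y', fun f => ?_⟩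
  have key : ∀ g' ∈ Submodule.span (ZMod p) (Set.range b.coord),
      chr g' y' = galChar (goodLevel_Gamma0 N) p g (chr g' y) := by
    intro g' hg'
    induction hg' using Submodule.span_induction with
    | mem _ hx => obtain ⟨i, rfl⟩ := hx; exact hb i
    | zero =>
      have h0 : ∀ z : W, chr (0 : k →ₗ[ZMod p] ZMod p) z = 1 := fun z =>
        Subtype.ext (MonoidHom.ext fun γ => by rw [chr_apply]; exact map_one _)
      rw [h0, h0, map_one]
    | add u v _ _ hu hv => rw [chr_add_fun, chr_add_fun, hu, hv, map_mul]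
    | smul a u _ hu => rw [chr_smul_fun, chr_smul_fun, hu, map_pow]
  refine key f ?_
  rw [← Module.Basis.coe_dualBasis, Module.Basis.span_eq]
  trivial

variable (p) in
/-- The underlying function of the Galois action. -/
def galWFun (g : GQ) (y : W) : W := (exists_galW (p := p) g y).choose

theorem chr_galWFun (f : k →ₗ[ZMod p] ZMod p) (g : GQ) (y : W) :
    chr f (galWFun p g y) = galChar (goodLevel_Gamma0 N) p g (chr f y) :=
  (exists_galW g y).choose_spec f

variable (p N k) in
/-- The Galois action. -/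
def galW : Representation k GQ (parabolicHoms k (Gamma0 N) k) where
  toFun g :=
    { toFun := galWFun p g
      map_add' := fun y y' => ext_chr (p := p) fun f => by
        rw [chr_galWFun, chr_add, chr_add, map_mul, chr_galWFun, chr_galWFun]
      map_smul' := fun a y => ext_chr (p := p) fun f => by
        rw [chr_galWFun, chr_smul, RingHom.id_apply, chr_smul, chr_galWFun] }
  map_one' := LinearMap.ext fun y => ext_chr (p := p) fun f => by
    show chr f (galWFun p 1 y) = chr f y
    rw [chr_galWFun, map_one, MulAut.one_apply]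
  map_mul' g h := LinearMap.ext fun y => ext_chr (p := p) fun f => by
    show chr f (galWFun p (g * h) y) = chr f (galWFun p g (galWFun p h y))
    rw [chr_galWFun, chr_galWFun, chr_galWFun, map_mul, MulAut.mul_apply]

/-- The Galois action on attached characters. -/
theorem chr_galW (f : k →ₗ[ZMod p] ZMod p) (g : GQ) (y : W) :
    chr f (galW N p k g y) = galChar (goodLevel_Gamma0 N) p g (chr f y) :=
  chr_galWFun f g y

/-- The action factors through a finite extension of `ℚ`. -/
theorem galW_finite_level :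
    ∃ L : IntermediateField ℚ (AlgebraicClosure ℚ), FiniteDimensional ℚ L ∧
      ∀ g ∈ L.fixingSubgroup, galW N p k g = 1 := by
  obtain ⟨L, hL, h⟩ := ES.galChar_finite_level (goodLevel_Gamma0 N) p
  refine ⟨L, hL, fun g hg => LinearMap.ext fun y => ext_chr (p := p) fun f => ?_⟩
  rw [chr_galW, h g ((IntermediateField.mem_fixingSubgroup_iff _ _).mp hg), MulAut.one_apply]
  rfl

/-- The Hecke operator on parabolic homomorphisms. -/
def heckeW {ℓ : ℕ} (hℓ : ℓ.Prime) : Module.End k (parabolicHoms k (Gamma0 N) k) :=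
  (heckeOp k N hℓ).restrict fun _ h => Period.isParabolicHom_heckeOp k hℓ h

omit [Module.Finite (ZMod p) k] [NeZero N] in
/-- The Hecke operator on attached characters. -/
theorem chr_heckeW (f : k →ₗ[ZMod p] ZMod p) {ℓ : ℕ} (hℓ : ℓ.Prime) (y : W) :
    (chr f (heckeW hℓ y) : Gamma0 N →* ℂˣ) = heckeChar N hℓ (chr f y : Gamma0 N →* ℂˣ) := by
  have : Fact ℓ.Prime := ⟨hℓ⟩
  have : NeZero ℓ := ⟨hℓ.ne_zero⟩
  refine MonoidHom.ext fun γ => ?_
  rw [chr_apply]
  show zU p (Multiplicative.ofAdd (f (heckeOp k N hℓ y.1 (Additive.ofMul γ)))) = _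
  unfold heckeOp heckeChar
  split <;>
    simp only [ES.charOp_apply, Period.TransferData.op_apply, map_sum, ES.zU_sum, chr_apply]

/-- The Galois action commutes with the Hecke operators. -/
theorem galW_heckeW {ℓ : ℕ} (hℓ : ℓ.Prime) (g : GQ) (y : W) :
    galW N p k g (heckeW hℓ y) = heckeW hℓ (galW N p k g y) := ext_chr (p := p) fun f => by
  refine Subtype.ext ?_
  rw [chr_galW, chr_heckeW, chr_galW]
  rw [show chr f (heckeW hℓ y) = ⟨heckeChar N hℓ (chr f y : Gamma0 N →* ℂˣ),
    ES.heckeChar_mem_parGroup hℓ (chr f y).2⟩ from Subtype.ext (chr_heckeW f hℓ y),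
    ES.galChar_heckeChar]

/-- The congruence relation. -/
theorem heckeW_frobenius {ℓ : ℕ} (hℓ : ℓ.Prime) (hℓN : ¬ ℓ ∣ N) (hℓp : ℓ ≠ p)
    {A : ValuationSubring (AlgebraicClosure ℚ)} (hA : A.LiesOverPrime ℓ) {g : GQ}
    (hg : A.IsFrobeniusAt g ℓ) (y : W) :
    heckeW hℓ y = galW N p k g y + (ℓ : k) • galW N p k g⁻¹ y := ext_chr (p := p) fun f => by
  have : Fact ℓ.Prime := ⟨hℓ⟩
  have : NeZero ℓ := ⟨hℓ.ne_zero⟩
  have hℓp' : ¬ ℓ ∣ p := fun h => hℓp ((Nat.prime_dvd_prime_iff_eq hℓ Fact.out).mp h)
  refine Subtype.ext ?_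
  rw [chr_heckeW, ES.heckeChar_of_not_dvd hℓN, ES.galChar_congruence hℓN hℓp' hA hg, chr_add,
    Subgroup.coe_mul, chr_galW, Nat.cast_smul_eq_nsmul]
  congr 1
  rw [← chr_galW]
  refine MonoidHom.ext fun γ => ?_
  rw [MonoidHom.pow_apply, chr_apply, chr_apply, ← map_pow, ← ofAdd_nsmul, ← map_nsmul]
  rfl

end FermatAgent.BAD.Ihara
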