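import Mathlib.LinearAlgebra.Matrix.GeneralLinearGroup.Defs
import Mathlib.Data.Matrix.Basis
import Mathlib.LinearAlgebra.Matrix.Trace
import Mathlib.RepresentationTheory.Basic
import Mathlib.Tactic.LinearCombination
import Fermat.Agent.GaloisBasic.TracePairing

/-!
# A vector fixed by the commutators of an element forces a scalar

If a nonzero vector `y`, on which an absolutely irreducible two dimensional representation
imposes its characteristic polynomials, is fixed by all commutators `g h g⁻¹ h⁻¹`, then the image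
of `g` is scalar.
-/

set_option autoImplicit false

noncomputable section

namespace FermatAgent.BAD.Ihara

variable {G k V : Type*} [Group G] [Field k] [AddCommGroup V] [Module k V]

theorem trace_eq_two {ρ : Representation k G V} {σ : G →* Matrix.GeneralLinearGroup (Fin 2) k}
    {y : V} (hy : y ≠ 0)
    (hCH : ∀ x : G, ρ x (ρ x y) - Matrix.trace (σ x : Matrix (Fin 2) (Fin 2) k) • ρ x y +
      Matrix.det (σ x : Matrix (Fin 2) (Fin 2) k) • y = 0)
    {c : G} (hc : ρ c y = y) (hd : Matrix.det (σ c : Matrix (Fin 2) (Fin 2) k) = 1) :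
    Matrix.trace (σ c : Matrix (Fin 2) (Fin 2) k) = 2 := by
  have h := hCH c
  rw [hc, hc, hd, one_smul] at h
  have h2 : (2 - Matrix.trace (σ c : Matrix (Fin 2) (Fin 2) k)) • y = 0 := by
    rw [sub_smul, two_smul]; rw [← h]; abel
  rcases smul_eq_zero.mp h2 with h3 | h3
  · exact (sub_eq_zero.mp h3).symm
  · exact absurd h3 hy

/-- **A vector fixed by all commutators of `g` forces the image of `g` to be scalar.** -/
theorem scalar_of_fixed (ρ : Representation k G V) (σ : G →* Matrix.GeneralLinearGroup (Fin 2) k)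
    (hspan : Submodule.span k (Set.range fun x => (σ x : Matrix (Fin 2) (Fin 2) k)) = ⊤)
    {y : V} (hy : y ≠ 0)
    (hCH : ∀ x : G, ρ x (ρ x y) - Matrix.trace (σ x : Matrix (Fin 2) (Fin 2) k) • ρ x y +
      Matrix.det (σ x : Matrix (Fin 2) (Fin 2) k) • y = 0)
    {g : G} (hfix : ∀ h : G, ρ (g * h * g⁻¹ * h⁻¹) y = y) :
    ∃ a : k, (σ g : Matrix (Fin 2) (Fin 2) k) = a • (1 : Matrix (Fin 2) (Fin 2) k) := by
  -- the stabiliser of `y`
  let S : Subgroup G :=
    { carrier := {x | ρ x y = y}
      one_mem' := by simp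
      mul_mem' := fun {a b} (ha : ρ a y = y) (hb : ρ b y = y) => by
        show ρ (a * b) y = y
        rw [map_mul, Module.End.mul_apply, hb, ha]
      inv_mem' := fun {a} (ha : ρ a y = y) => by
        show ρ a⁻¹ y = y
        conv_lhs => rw [← ha, ← Module.End.mul_apply, ← map_mul, inv_mul_cancel, map_one]
        rfl }
  have hcomm : ∀ h : G, g * h * g⁻¹ * h⁻¹ ∈ S := hfix
  have hconj : ∀ h x : G, x * (g * h * g⁻¹ * h⁻¹) * x⁻¹ ∈ S := fun h x => by
    have := S.mul_mem (S.inv_mem (hcomm x)) (hcomm (x * h))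
    convert this using 1
    group
  have hdet : ∀ h x : G, Matrix.det (σ (x * (g * h * g⁻¹ * h⁻¹) * x⁻¹) :
      Matrix (Fin 2) (Fin 2) k) = 1 := fun h x => by
    rw [← Matrix.GeneralLinearGroup.val_det_apply, ← Units.val_one]
    congr 1
    simp only [map_mul, map_inv]
    simp [mul_comm]
  have hzero : ∀ h : G, σ (g * h * g⁻¹ * h⁻¹) = 1 := fun h => by
    set c := g * h * g⁻¹ * h⁻¹
    have hc : ρ c y = y := hcomm h
    have hdc : Matrix.det (σ c : Matrix (Fin 2) (Fin 2) k) = 1 := by
      simpa [c] using hdet h 1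
    set C : Matrix (Fin 2) (Fin 2) k := (σ c : Matrix (Fin 2) (Fin 2) k)
    have htc : Matrix.trace C = 2 := trace_eq_two hy hCH hc hdc
    -- the key identity
    have key : ∀ x : G, Matrix.trace ((C - 1) * (σ x : Matrix (Fin 2) (Fin 2) k)) = 0 := fun x => by
      set X : Matrix (Fin 2) (Fin 2) k := (σ x : Matrix (Fin 2) (Fin 2) k) with hX
      set c' := x * c * x⁻¹ with hc'
      have h1 : ρ (c * c') y = y := S.mul_mem hc (hconj h x)
      have h2 : Matrix.det (σ (c * c') : Matrix (Fin 2) (Fin 2) k) = 1 := by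
        rw [map_mul, Units.val_mul, Matrix.det_mul, hdc, one_mul]; exact hdet h x
      have h3 := trace_eq_two hy hCH h1 h2
      have hXd : Matrix.det X ≠ 0 := by
        rw [hX, ← Matrix.GeneralLinearGroup.val_det_apply]; exact Units.ne_zero _
      have e : (σ x⁻¹ : Matrix (Fin 2) (Fin 2) k) = (Matrix.det X)⁻¹ • X.adjugate := by
        have h4 : (σ x⁻¹ : Matrix (Fin 2) (Fin 2) k) * X = 1 := by
          rw [hX, ← Units.val_mul, ← map_mul, inv_mul_cancel, map_one, Units.val_one]
        have h5 : (σ x⁻¹ : Matrix (Fin 2) (Fin 2) k) * X * X.adjugate = X.adjugate := by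
          rw [h4, one_mul]
        rw [mul_assoc, Matrix.mul_adjugate, Matrix.mul_smul, mul_one] at h5
        rw [← h5, smul_smul, inv_mul_cancel₀ hXd, one_smul]
      rw [hc', map_mul σ c, map_mul σ (x * c), map_mul σ x c, Units.val_mul, Units.val_mul,
        Units.val_mul, ← hX, e, Matrix.mul_smul, Matrix.mul_smul, Matrix.trace_smul, smul_eq_mul,
        inv_mul_eq_iff_eq_mul₀ hXd] at h3
      rw [Matrix.det_fin_two] at hdc
      rw [Matrix.trace_fin_two] at htc
      simp only [Matrix.trace_fin_two, Matrix.mul_apply, Fin.sum_univ_two, Matrix.adjugate_fin_two,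
        Matrix.det_fin_two, Matrix.sub_apply, Matrix.one_apply_eq, Matrix.of_apply,
        Matrix.cons_val', Matrix.cons_val_zero, Matrix.cons_val_one, Matrix.empty_val',
        Matrix.cons_val_fin_one, Matrix.one_apply_ne (show (0 : Fin 2) ≠ 1 by decide),
        Matrix.one_apply_ne (show (1 : Fin 2) ≠ 0 by decide)] at h3 ⊢
      refine eq_zero_of_pow_eq_zero (n := 2) ?_
      rw [show (σ c : Matrix (Fin 2) (Fin 2) k) = C from rfl] at h3
      have e11 : C 1 1 = 2 - C 0 0 := by linear_combination htc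
      rw [e11] at h3 hdc ⊢
      linear_combination -h3 - (X 0 0 ^ 2 + X 1 1 ^ 2 + 2 * (X 0 1 * X 1 0)) * hdc
    exact Units.ext (sub_eq_zero.mp (GaloisBasic.eq_zero_of_trace_mul_span hspan key))
  -- `σ g` is central
  have hcen : ∀ X : Matrix (Fin 2) (Fin 2) k, (σ g : Matrix (Fin 2) (Fin 2) k) * X =
      X * (σ g : Matrix (Fin 2) (Fin 2) k) := fun X => by
    have hX : X ∈ Submodule.span k (Set.range fun x => (σ x : Matrix (Fin 2) (Fin 2) k)) := by
      rw [hspan]; trivial
    induction hX using Submodule.span_induction with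
    | mem _ hm =>
      obtain ⟨h, rfl⟩ := hm
      have h1 := hzero h
      rw [map_mul, map_mul, map_mul, map_inv, map_inv, mul_inv_eq_one, mul_inv_eq_iff_eq_mul] at h1
      exact congrArg (fun u : Matrix.GeneralLinearGroup (Fin 2) k =>
        (u : Matrix (Fin 2) (Fin 2) k)) h1
    | zero => simp
    | add _ _ _ _ h h' => rw [mul_add, add_mul, h, h']
    | smul a _ _ h => rw [Matrix.mul_smul, Matrix.smul_mul, h]
  refine ⟨(σ g : Matrix (Fin 2) (Fin 2) k) 0 0, ?_⟩
  have h01 := congrFun (congrFun (hcen (Matrix.single 0 1 1)) 0) 1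
  have h01' := congrFun (congrFun (hcen (Matrix.single 0 1 1)) 0) 0
  have h10 := congrFun (congrFun (hcen (Matrix.single 1 0 1)) 0) 0
  simp [Matrix.mul_apply, Matrix.single] at h01 h01' h10
  ext i j
  fin_cases i <;> fin_cases j <;> simp [← h01, ← h01', h10]

end FermatAgent.BAD.Ihara
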