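import Fermat.Agent.BAD.Ihara.Action
import Fermat.Agent.BAD.Ihara.Scalar
import Fermat.Agent.GaloisBasic.CharpolyDensity

/-!
# The Galois action on eigenvectors

On the common eigenvectors of the good Hecke operators the Galois action satisfies the
characteristic polynomials of the attached representation.
-/

set_option autoImplicit false

open CongruenceSubgroup
open scoped MatrixGroups
open ModularCurve.Period
open FermatAgent.ES (GQ)

noncomputable section

namespace FermatAgent.BAD.Ihara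

section Matrix

variable {k : Type*} [CommRing k]

end Matrix

section Recursion

variable {k G V : Type*} [Field k] [Group G] [AddCommGroup V] [Module k V]

/-- A trace relation for one element propagates to its powers. -/
theorem trace_rel_pow (e : G →* Module.End k V) (σ : G →* Matrix.GeneralLinearGroup (Fin 2) k)
    (W : Set V) (τ : G) {z : V} (hz : z ∈ W) (hW : ∀ x, e x z ∈ W)
    (hbase : ∀ w ∈ W, e τ w + Matrix.det (σ τ : Matrix (Fin 2) (Fin 2) k) • e τ⁻¹ w =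
      Matrix.trace (σ τ : Matrix (Fin 2) (Fin 2) k) • w) (i : ℕ) :
    e (τ ^ i) z + Matrix.det (σ (τ ^ i) : Matrix (Fin 2) (Fin 2) k) • e (τ ^ i)⁻¹ z =
      Matrix.trace (σ (τ ^ i) : Matrix (Fin 2) (Fin 2) k) • z := by
  suffices H : ∀ i, (e (τ ^ i) z + Matrix.det (σ (τ ^ i) : Matrix (Fin 2) (Fin 2) k) •
      e (τ ^ i)⁻¹ z = Matrix.trace (σ (τ ^ i) : Matrix (Fin 2) (Fin 2) k) • z) ∧
    (e (τ ^ (i + 1)) z + Matrix.det (σ (τ ^ (i + 1)) : Matrix (Fin 2) (Fin 2) k) •
      e (τ ^ (i + 1))⁻¹ z = Matrix.trace (σ (τ ^ (i + 1)) : Matrix (Fin 2) (Fin 2) k) • z) from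
    (H i).1
  intro i
  induction i with
  | zero =>
    refine ⟨?_, by rw [zero_add, pow_one]; exact hbase z hz⟩
    rw [pow_zero, inv_one, map_one e, map_one σ, Units.val_one, Matrix.det_one, one_smul,
      Matrix.trace_one, Fintype.card_fin, Module.End.one_apply]
    norm_num [two_smul]
  | succ i ih =>
    refine ⟨ih.2, ?_⟩
    set d := Matrix.det (σ τ : Matrix (Fin 2) (Fin 2) k)
    set t := Matrix.trace (σ τ : Matrix (Fin 2) (Fin 2) k)
    have hw : ∀ x : G, e x z ∈ W := hW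
    have h1 := hbase _ (hw (τ ^ (i + 1)))
    have h2 := hbase _ (hw (τ ^ (i + 1))⁻¹)
    rw [← Module.End.mul_apply, ← Module.End.mul_apply, ← map_mul, ← map_mul] at h1 h2
    rw [show τ * τ ^ (i + 1) = τ ^ (i + 2) by rw [← pow_succ'],
      show τ⁻¹ * τ ^ (i + 1) = τ ^ i by rw [pow_succ', inv_mul_cancel_left]] at h1
    rw [show τ * (τ ^ (i + 1))⁻¹ = (τ ^ i)⁻¹ by rw [pow_succ, mul_inv_rev, mul_inv_cancel_left],
      show τ⁻¹ * (τ ^ (i + 1))⁻¹ = (τ ^ (i + 2))⁻¹ by rw [pow_succ _ (i + 1), mul_inv_rev]] at h2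
    have hdp : ∀ m, Matrix.det (σ (τ ^ m) : Matrix (Fin 2) (Fin 2) k) = d ^ m := fun m => by
      rw [map_pow, Units.val_pow_eq_pow_val, Matrix.det_pow]
    have htp : Matrix.trace (σ (τ ^ (i + 2)) : Matrix (Fin 2) (Fin 2) k) =
        t * Matrix.trace (σ (τ ^ (i + 1)) : Matrix (Fin 2) (Fin 2) k) -
          d * Matrix.trace (σ (τ ^ i) : Matrix (Fin 2) (Fin 2) k) := by
      simp only [map_pow, Units.val_pow_eq_pow_val]
      exact GaloisBasic.trace_pow_add_two (R := k) _ i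
    have i1 := ih.1
    have i2 := ih.2
    rw [hdp] at i1 i2 ⊢
    rw [htp]
    linear_combination (norm := module) h1 + d ^ (i + 1) • h2 + t • i2 - d • i1

end Recursion

variable {N p : ℕ} [NeZero N] [Fact p.Prime] {k : Type*} [Field k] [Algebra (ZMod p) k]
  [Module.Finite (ZMod p) k] (S : Finset ℕ) (σ : GQ →* Matrix.GeneralLinearGroup (Fin 2) k)
  (a : ℕ → k)

variable (N) in
/-- The common eigenvectors of the good Hecke operators. -/
def eigenW : Submodule k (parabolicHoms k (Gamma0 N) k) where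
  carrier := {z | ∀ (ℓ : ℕ) (hℓ : ℓ.Prime), ℓ ∉ S → heckeW hℓ z = a ℓ • z}
  add_mem' {x y} hx hy ℓ hℓ h := by rw [map_add, hx ℓ hℓ h, hy ℓ hℓ h, smul_add]
  zero_mem' ℓ hℓ _ := by rw [map_zero, smul_zero]
  smul_mem' c x hx ℓ hℓ h := by rw [_root_.map_smul, hx ℓ hℓ h, smul_comm]

/-- The Galois action preserves the eigenvectors. -/
theorem galW_mem_eigenW {z : parabolicHoms k (Gamma0 N) k} (hz : z ∈ eigenW N S a) (g : GQ) :
    galW N p k g z ∈ eigenW N S a := fun ℓ hℓ h => by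
  rw [← galW_heckeW, hz ℓ hℓ h, _root_.map_smul]

variable (N p) in
/-- `σ` is a continuous representation whose Frobenius elements at the primes outside `S`, all
prime to `N p`, have trace `a ℓ` and determinant `ℓ`. -/
structure IsEigenData : Prop where
  good : ∀ ℓ : ℕ, ℓ.Prime → ℓ ∉ S → ¬ ℓ ∣ N ∧ ℓ ≠ p
  continuous : ∃ L : IntermediateField ℚ (AlgebraicClosure ℚ), FiniteDimensional ℚ L ∧
    ∀ g ∈ L.fixingSubgroup, σ g = 1
  frobenius : ∀ ℓ : ℕ, ℓ.Prime → ℓ ∉ S → ∀ A : ValuationSubring (AlgebraicClosure ℚ),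
    A.LiesOverPrime ℓ → ∀ g : GQ, A.IsFrobeniusAt g ℓ →
      Matrix.trace (σ g : Matrix (Fin 2) (Fin 2) k) = a ℓ ∧
      Matrix.det (σ g : Matrix (Fin 2) (Fin 2) k) = ℓ

variable (hσ : IsEigenData N p S σ a)
include hσ

/-- The trace relation on the eigenvectors. -/
theorem galW_trace {z : parabolicHoms k (Gamma0 N) k} (hz : z ∈ eigenW N S a) (g : GQ) :
    galW N p k g z + Matrix.det (σ g : Matrix (Fin 2) (Fin 2) k) • galW N p k g⁻¹ z =
      Matrix.trace (σ g : Matrix (Fin 2) (Fin 2) k) • z := by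
  obtain ⟨L₁, hL₁, h₁⟩ := galW_finite_level (N := N) (p := p) (k := k)
  obtain ⟨L₂, hL₂, h₂⟩ := hσ.continuous
  have := hL₁; have := hL₂
  obtain ⟨ℓ, A, τ, j, -, hℓ, hℓS, hA, hτ, -, hg, -⟩ :=
    GaloisBasic.exists_frobenius_pow_congr (L₁ ⊔ L₂) g S
  set u := (τ ^ j)⁻¹ * g
  have hu1 : galW N p k u = 1 := h₁ u (IntermediateField.fixingSubgroup_antitone le_sup_left hg)
  have hu2 : σ u = 1 := h₂ u (IntermediateField.fixingSubgroup_antitone le_sup_right hg)
  have hgu : g = τ ^ j * u := by simp [u]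
  have hu1' : galW N p k u⁻¹ = 1 :=
    h₁ u⁻¹ (inv_mem (IntermediateField.fixingSubgroup_antitone le_sup_left hg))
  clear_value u
  rw [hgu, mul_inv_rev]
  simp only [map_mul, hu1, hu1', hu2, mul_one, one_mul]
  clear hgu hu1 hu2 hu1' hg
  obtain ⟨hN, hp⟩ := hσ.good ℓ hℓ hℓS
  obtain ⟨ht, hd⟩ := hσ.frobenius ℓ hℓ hℓS A hA τ hτ
  have hbase : ∀ w ∈ eigenW N S a, galW N p k τ w +
      Matrix.det (σ τ : Matrix (Fin 2) (Fin 2) k) • galW N p k τ⁻¹ w =
        Matrix.trace (σ τ : Matrix (Fin 2) (Fin 2) k) • w := fun w hw => by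
    rw [ht, hd, ← heckeW_frobenius hℓ hN hp hA hτ, hw ℓ hℓ hℓS]
  exact trace_rel_pow (galW N p k) σ (eigenW N S a) τ hz
    (fun x => galW_mem_eigenW (p := p) S a hz x) hbase j

end FermatAgent.BAD.Ihara
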