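import Mathlib.Data.Set.Finite.Lemmas
import Mathlib.Data.Finset.Max
import Mathlib.RingTheory.Ideal.Operations
import Mathlib.Algebra.BigOperators.Ring.Finset
import Mathlib.RingTheory.Ideal.Maximal
import Mathlib.Algebra.Module.Submodule.Basic
import Mathlib.Data.Fintype.Card
import Mathlib.Algebra.BigOperators.Group.Finset.Basic
import Mathlib.Algebra.BigOperators.GroupWithZero.Finset

/-!
# An element killed by a maximal ideal, in a finite module

If an element of a finite set stable under the ring is killed by no element outside the maximal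
ideal `𝔪`, some element of that set is killed by all of `𝔪` and is not killed by `1`.
-/

set_option autoImplicit false

namespace FermatAgent.BAD.Ihara

variable {A V : Type*} [CommRing A] [AddCommGroup V] [Module A V]

/-- Killed after localising at `𝔪`. -/
def Dead (𝔪 : Ideal A) (z : V) : Prop := ∃ s ∉ 𝔪, s • z = 0

/-- **An element killed by the maximal ideal in a finite submodule containing one not killed after
localisation.** -/
theorem exists_killed [Finite V] (𝔪 : Ideal A) [𝔪.IsMaximal] (K : Submodule A V) {z : V}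
    (hz : z ∈ K) (h : ¬ Dead 𝔪 z) : ∃ w ∈ K, w ≠ 0 ∧ ∀ g ∈ 𝔪, g • w = 0 := by
  classical
  have := Fintype.ofFinite V
  -- an element whose orbit is as small as possible
  let orb : V → Finset V := fun w => Finset.univ.filter fun v => ∃ r : A, r • w = v
  have hne : ({w | w ∈ K ∧ ¬ Dead 𝔪 w} : Set V).Nonempty := ⟨z, hz, h⟩
  obtain ⟨w, ⟨hwK, hw⟩, hmin⟩ :=
    Set.exists_min_image _ (fun v => (orb v).card) (Set.toFinite _) hne
  have hdead : ∀ g ∈ 𝔪, Dead 𝔪 (g • w) := fun g hg => by
    by_contra hgw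
    have hle : orb (g • w) ⊆ orb w := fun v hv => by
      simp only [orb, Finset.mem_filter, Finset.mem_univ, true_and] at hv ⊢
      obtain ⟨r, rfl⟩ := hv
      exact ⟨r * g, mul_smul r g w⟩
    have heq := Finset.eq_of_subset_of_card_le hle (hmin (g • w) ⟨K.smul_mem g hwK, hgw⟩)
    have hmem : w ∈ orb (g • w) := by
      rw [heq]; simp only [orb, Finset.mem_filter, Finset.mem_univ, true_and]
      exact ⟨1, one_smul A w⟩
    simp only [orb, Finset.mem_filter, Finset.mem_univ, true_and] at hmem
    obtain ⟨r, hr⟩ := hmem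
    refine hw ⟨1 - r * g, fun hm => ?_, by rw [sub_smul, one_smul, mul_smul, hr, sub_self]⟩
    have := 𝔪.add_mem hm (𝔪.mul_mem_left r hg)
    rw [sub_add_cancel] at this
    exact (Ideal.ne_top_iff_one 𝔪).mp (Ideal.IsMaximal.ne_top ‹_›) this
  -- one element kills all of `𝔪 • w`
  let T : Finset V := Finset.univ.filter fun v => Dead 𝔪 v
  have hch : ∀ v : T, ∃ s ∉ 𝔪, s • v.1 = 0 := fun v => (Finset.mem_filter.mp v.2).2
  choose s hs hs0 using hch
  set u := ∏ v, s v
  have hu : u ∉ 𝔪 := fun hu => by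
    obtain ⟨v, -, hv⟩ := (Ideal.IsPrime.prod_mem_iff (p := 𝔪)).mp hu
    exact hs v hv
  refine ⟨u • w, K.smul_mem u hwK, fun h0 => hw ⟨u, hu, h0⟩, fun g hg => ?_⟩
  have hT : g • w ∈ T := by simp [T, hdead g hg]
  obtain ⟨c, hc⟩ : s ⟨_, hT⟩ ∣ u := Finset.dvd_prod_of_mem s (Finset.mem_univ _)
  rw [smul_comm, hc, mul_comm, mul_smul, hs0 ⟨_, hT⟩, smul_zero]

end FermatAgent.BAD.Ihara
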